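import Fermat.Agent.S56.EC.HQ.Defs

/-!
# S56 / EC / HQ : EC-H3 (Frobenius reciprocity), proof file.
-/

set_option autoImplicit false

namespace Fermat.Agent.S56.EC

open Module

variable {k : Type} [Field k] {G : Type} [Group G] {Q : Type} [AddCommGroup Q] [Module k Q]

lemma frob_smul_one (D : Subgroup G) (d : D) : (d : G) • (((1 : G) : G ⧸ D)) = ((1 : G) : G ⧸ D) := by
  rw [MulAction.Quotient.smul_coe, smul_eq_mul, mul_one]
  exact QuotientGroup.eq.2 (by simp)

lemma frob_mem_invariants {σQ : Representation k G Q} {D : Subgroup G} {l : Dual k Q} :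
    l ∈ (resRep D.subtype σQ.dual).invariants ↔ ∀ d : D, ∀ q, l (σQ (d : G) q) = l q := by
  constructor
  · intro h d q
    have := LinearMap.congr_fun (h d⁻¹) q
    simpa [Representation.dual_apply, Module.Dual.transpose_apply] using this
  · intro h d
    refine LinearMap.ext fun q => ?_
    have := h d⁻¹ q
    simpa [Representation.dual_apply, Module.Dual.transpose_apply] using this

/-- `φ ↦ (q ↦ φ q (1 D))` -/
def frobMap (σQ : Representation k G Q) (D : Subgroup G) :
    ↥(eqHom σQ (funRep (G ⧸ D) (1 : Representation k G k))) →ₗ[k]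
      ↥(resRep D.subtype σQ.dual).invariants where
  toFun φ := ⟨(LinearMap.proj ((1 : G) : G ⧸ D)).comp φ.1, by
    rw [frob_mem_invariants]
    intro d q
    have h := congrFun (φ.2 (d : G) q) ((1 : G) : G ⧸ D)
    have e : (d : G)⁻¹ • (((1 : G) : G ⧸ D)) = ((1 : G) : G ⧸ D) := frob_smul_one D d⁻¹
    rw [funRep_apply, e] at h
    exact h⟩
  map_add' _ _ := rfl
  map_smul' _ _ := rfl

lemma frobMap_apply (σQ : Representation k G Q) (D : Subgroup G)
    (φ : ↥(eqHom σQ (funRep (G ⧸ D) (1 : Representation k G k)))) (q : Q) :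
    (frobMap σQ D φ : Dual k Q) q = φ.1 q ((1 : G) : G ⧸ D) := rfl

lemma frobMap_injective (σQ : Representation k G Q) (D : Subgroup G) :
    Function.Injective (frobMap σQ D) := by
  rw [injective_iff_map_eq_zero]
  intro φ hφ
  apply Subtype.ext
  refine LinearMap.ext fun q => funext fun x => ?_
  obtain ⟨g, rfl⟩ := QuotientGroup.mk_surjective x
  have h := congrFun (φ.2 g⁻¹ q) ((1 : G) : G ⧸ D)
  rw [funRep_apply, inv_inv, MulAction.Quotient.smul_coe, smul_eq_mul, mul_one] at h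
  have h2 : (frobMap σQ D φ : Dual k Q) (σQ g⁻¹ q) = 0 := by rw [hφ]; rfl
  rw [frobMap_apply, h] at h2
  exact h2

lemma frobMap_surjective (σQ : Representation k G Q) (D : Subgroup G) :
    Function.Surjective (frobMap σQ D) := by
  rintro ⟨l, hl⟩
  rw [frob_mem_invariants] at hl
  have key : ∀ (g g' : G), ((g : G ⧸ D) = g') → ∀ q, l (σQ g⁻¹ q) = l (σQ g'⁻¹ q) := by
    intro g g' hgg q
    have hd : g'⁻¹ * g ∈ D := QuotientGroup.eq.1 hgg.symm
    have := hl ⟨g'⁻¹ * g, hd⟩ (σQ g⁻¹ q)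
    rw [← this]
    change l (σQ (g'⁻¹ * g) (σQ g⁻¹ q)) = _
    rw [← Module.End.mul_apply, ← map_mul, mul_assoc, mul_inv_cancel, mul_one]
  let φ : Q →ₗ[k] (G ⧸ D → k) := LinearMap.pi fun x => l.comp (σQ (Quotient.out x)⁻¹)
  have hφ : φ ∈ eqHom σQ (funRep (G ⧸ D) (1 : Representation k G k)) := by
    intro g q
    funext x
    rw [funRep_apply]
    change l (σQ (Quotient.out x)⁻¹ (σQ g q)) = l (σQ (Quotient.out (g⁻¹ • x))⁻¹ q)
    rw [← Module.End.mul_apply, ← map_mul]
    have e : (Quotient.out x)⁻¹ * g = (g⁻¹ * Quotient.out x)⁻¹ := by group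
    rw [e]
    refine key _ _ ?_ q
    rw [QuotientGroup.out_eq', ← smul_eq_mul, ← MulAction.Quotient.smul_coe,
      QuotientGroup.out_eq']
  refine ⟨⟨φ, hφ⟩, Subtype.ext (LinearMap.ext fun q => ?_)⟩
  change l (σQ (Quotient.out ((1 : G) : G ⧸ D))⁻¹ q) = l q
  rw [key _ 1 (QuotientGroup.out_eq' _) q, inv_one, map_one, Module.End.one_apply]

/-- `Hom_G(Q, k[G/D]) = Hom_D(Q,k) = (Q^*)^D`. -/
theorem homDim_funRep_quot_dual' (σQ : Representation k G Q) (D : Subgroup G) :
    homDim σQ (funRep (G ⧸ D) (1 : Representation k G k)) =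
      finrank k ↥(resRep D.subtype σQ.dual).invariants :=
  (LinearEquiv.ofBijective (frobMap σQ D)
    ⟨frobMap_injective σQ D, frobMap_surjective σQ D⟩).finrank_eq

end Fermat.Agent.S56.EC
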