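import Fermat.Agent.S56.EC.HQ.Defs

/-!
# S56 / EC / HQ : EC-H5 (duals and twists), proof file.
-/

set_option autoImplicit false

namespace Fermat.Agent.S56.EC

open Fermat.Agent.CFT (IsSES IsoRep chiRep)
open Module

variable {k : Type} [Field k] {G : Type} [Group G]
  {Q Q' X A B C : Type} [AddCommGroup Q] [Module k Q] [AddCommGroup Q'] [Module k Q']
  [AddCommGroup X] [Module k X]
  [AddCommGroup A] [Module k A] [AddCommGroup B] [Module k B] [AddCommGroup C] [Module k C]

lemma dualTwist_apply (σ : Representation k G X) (χ : G →* kˣ) (g : G) (l : Dual k X) (x : X) :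
    (σ.dual.twist χ) g l x = (χ g : k) * l (σ g⁻¹ x) := by
  rw [Representation.twist_apply_apply, Representation.dual_apply, LinearMap.smul_apply,
    Module.Dual.transpose_apply, smul_eq_mul]
  rfl

/-- the twisted dual is functorial for isomorphisms -/
lemma isoRep_dualTwist {σ : Representation k G Q} {σ' : Representation k G Q'} (h : IsoRep σ σ')
    (χ : G →* kˣ) : IsoRep (σ.dual.twist χ) (σ'.dual.twist χ) := by
  obtain ⟨e, he⟩ := h
  refine ⟨e.symm.dualMap, fun g l => LinearMap.ext fun x => ?_⟩
  rw [dualTwist_apply, LinearEquiv.dualMap_apply, dualTwist_apply, LinearEquiv.dualMap_apply]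
  congr 2
  apply e.injective
  rw [he, e.apply_symm_apply, e.apply_symm_apply]

/-- the twisted dual of a product -/
lemma isoRep_dualTwist_prod (σ : Representation k G Q) (σ' : Representation k G Q') (χ : G →* kˣ) :
    IsoRep ((prodRep σ σ').dual.twist χ) (prodRep (σ.dual.twist χ) (σ'.dual.twist χ)) := by
  refine ⟨(Module.dualProdDualEquivDual k Q Q').symm, fun g l => ?_⟩
  apply (Module.dualProdDualEquivDual k Q Q').injective
  rw [LinearEquiv.apply_symm_apply]
  refine LinearMap.ext fun x => ?_
  obtain ⟨l', rfl⟩ := (Module.dualProdDualEquivDual k Q Q').surjective l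
  rw [LinearEquiv.symm_apply_apply, dualTwist_apply]
  simp only [Module.dualProdDualEquivDual_apply_apply, prodRep_apply, dualTwist_apply]
  ring

/-- the twisted dual of a finite power -/
lemma isoRep_dualTwist_pow (ι : Type) [Finite ι] (σ : Representation k G Q) (χ : G →* kˣ) :
    IsoRep ((powRep ι σ).dual.twist χ) (powRep ι (σ.dual.twist χ)) := by
  classical
  have := Fintype.ofFinite ι
  refine ⟨(LinearMap.lsum k (fun _ : ι => Q) k).symm, fun g l => ?_⟩
  funext i
  refine LinearMap.ext fun q => ?_
  rw [powRep_apply, dualTwist_apply]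
  change ((powRep ι σ).dual.twist χ) g l (Pi.single i q) = (χ g : k) * l (Pi.single i (σ g⁻¹ q))
  rw [dualTwist_apply]
  congr 2
  funext j
  rw [powRep_apply]
  by_cases h : j = i
  · subst h; simp
  · simp [Pi.single_eq_of_ne h]

/-- the twisted dual of the regular representation is regular: `λ ↦ (g ↦ χ(g)⁻¹ λ(δ_g))` -/
theorem isoRep_reg_dualTwist' [Finite G] (χ : G →* kˣ) :
    IsoRep ((regRep k G).dual.twist χ) (regRep k G) := by
  classical
  have := Fintype.ofFinite G
  let f : Dual k (G → k) →ₗ[k] (G → k) :=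
    { toFun := fun l g => ((χ g)⁻¹ : kˣ) * l (Pi.single g 1)
      map_add' := fun l l' => funext fun g => by simp [mul_add]
      map_smul' := fun c l => funext fun g => by simp; ring }
  have hinj : Function.Injective f := by
    rw [injective_iff_map_eq_zero]
    intro l hl
    refine (Pi.basisFun k G).ext fun g => ?_
    have h := congrFun hl g
    have h2 : (((χ g)⁻¹ : kˣ) : k) * l (Pi.single g 1) = 0 := h
    rw [Pi.basisFun_apply]
    simpa using h2
  have hfr : finrank k (Dual k (G → k)) = finrank k (G → k) := Subspace.dual_finrank_eq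
  refine ⟨LinearEquiv.ofInjectiveOfFinrankEq f hinj hfr, fun h l => funext fun g => ?_⟩
  change (((χ g)⁻¹ : kˣ) : k) * ((regRep k G).dual.twist χ) h l (Pi.single g 1) =
    (((χ (h⁻¹ • g))⁻¹ : kˣ) : k) * l (Pi.single (h⁻¹ • g) 1)
  rw [dualTwist_apply]
  have e : (regRep k G) h⁻¹ (Pi.single g 1) = Pi.single (h⁻¹ • g) 1 := by
    funext x
    rw [funRep_apply, inv_inv]
    change (Pi.single g (1 : k) : G → k) (h • x) = _
    by_cases hx : x = h⁻¹ • g
    · subst hx; simp
    · have : h • x ≠ g := fun hh => hx (by rw [← hh]; simp)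
      rw [Pi.single_eq_of_ne this, Pi.single_eq_of_ne hx]
  rw [e, smul_eq_mul, map_mul, map_inv, mul_inv, inv_inv, ← mul_assoc]
  congr 1
  rw [← Units.val_mul, mul_comm]

/-- the twisted dual of a projective is projective -/
theorem IsProj.dualTwist' [Finite G] {σQ : Representation k G Q}
    (hQ : IsProj σQ) (χ : G →* kˣ) : IsProj (σQ.dual.twist χ) := by
  obtain ⟨V₂, _, _, ρ₂, ι, hι, hF⟩ := hQ
  refine ⟨Dual k V₂, inferInstance, inferInstance, ρ₂.dual.twist χ, ι, hι, ?_⟩
  exact isoRep_trans (isoRep_symm (isoRep_dualTwist_prod σQ ρ₂ χ))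
    (isoRep_trans (isoRep_dualTwist hF χ)
      (isoRep_trans (isoRep_dualTwist_pow ι _ χ) (isoRep_pow ι (isoRep_reg_dualTwist' χ))))

/-- `Hom_G(V^*(χ), k(χ)) = V^G` -/
theorem homDim_dualTwist_chiRep' [Module.Finite k X] (σ : Representation k G X) (χ : G →* kˣ) :
    homDim (σ.dual.twist χ) (chiRep χ) = finrank k ↥σ.invariants := by
  have hmem : ∀ v : X, Module.Dual.eval k X v ∈ eqHom (σ.dual.twist χ) (chiRep χ) ↔
      v ∈ σ.invariants := by
    intro v
    constructor
    · intro h g
      refine sub_eq_zero.1 ((Module.forall_dual_apply_eq_zero_iff k _).1 fun l => ?_)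
      have h1 := h g⁻¹ l
      rw [Module.Dual.eval_apply, dualTwist_apply, inv_inv, Module.Dual.eval_apply] at h1
      have h2 : (chiRep χ) g⁻¹ (l v) = (χ g⁻¹ : k) * l v := by
        simp [chiRep, Representation.twist_apply_apply]
      rw [h2] at h1
      have h3 := mul_left_cancel₀ (Units.ne_zero _) h1
      rw [map_sub, h3, sub_self]
    · intro h g l
      rw [Module.Dual.eval_apply, dualTwist_apply, Module.Dual.eval_apply, h g⁻¹]
      simp [chiRep, Representation.twist_apply_apply]
  let f : ↥σ.invariants →ₗ[k] ↥(eqHom (σ.dual.twist χ) (chiRep χ)) :=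
    ((Module.Dual.eval k X).comp σ.invariants.subtype).codRestrict _ fun v => (hmem v).2 v.2
  have hf : Function.Bijective f := by
    constructor
    · intro v w hvw
      apply Subtype.ext
      have h1 : Module.Dual.eval k X (v : X) = Module.Dual.eval k X (w : X) :=
        congrArg Subtype.val hvw
      exact (Module.evalEquiv k X).injective h1
    · rintro ⟨φ, hφ⟩
      obtain ⟨v, rfl⟩ := (Module.evalEquiv k X).surjective φ
      exact ⟨⟨v, (hmem v).1 hφ⟩, rfl⟩
  exact (LinearEquiv.ofBijective f hf).finrank_eq.symm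

/-- invariants of the restriction to `⊤` -/
lemma finrank_invariants_res_top (σ : Representation k G X) :
    finrank k ↥(resRep (⊤ : Subgroup G).subtype σ).invariants = finrank k ↥σ.invariants := by
  have : (resRep (⊤ : Subgroup G).subtype σ).invariants = σ.invariants := by
    ext v
    exact ⟨fun h g => h ⟨g, Subgroup.mem_top g⟩, fun h g => h g⟩
  rw [this]

/-- `Hom_G(Q,k) = (Q^*)^G` -/
lemma homDim_one_eq_dual (σQ : Representation k G Q) :
    homDim σQ (1 : Representation k G k) = finrank k ↥σQ.dual.invariants := by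
  have : eqHom σQ (1 : Representation k G k) = σQ.dual.invariants := by
    ext l
    constructor
    · intro h g
      refine LinearMap.ext fun q => ?_
      rw [Representation.dual_apply, Module.Dual.transpose_apply]
      exact h g⁻¹ q
    · intro h g q
      have := LinearMap.congr_fun (h g⁻¹) q
      rw [Representation.dual_apply, Module.Dual.transpose_apply, inv_inv] at this
      exact this
  unfold homDim
  rw [this]

/-- eigenspaces of an involution -/
lemma finrank_ker_invol [Module.Finite k X] (h2 : (2 : k) ≠ 0) (T : X →ₗ[k] X)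
    (hT : ∀ x, T (T x) = x) :
    finrank k ↥(LinearMap.ker (T - 1)) + finrank k ↥(LinearMap.ker (T + 1)) = finrank k X := by
  have h : LinearMap.ker (T + 1) = LinearMap.range (T - 1) := by
    ext x
    constructor
    · intro hx
      have hx' : T x + x = 0 := hx
      refine ⟨(-(2 : k)⁻¹) • x, ?_⟩
      have e : T x = -x := eq_neg_of_add_eq_zero_left hx'
      simp only [LinearMap.sub_apply, Module.End.one_apply, map_smul, e]
      have e2 : -x - x = (-(2 : k)) • x := by rw [neg_smul, two_smul]; abel
      rw [e2, smul_smul, neg_mul_neg, inv_mul_cancel₀ h2, one_smul]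
    · rintro ⟨y, rfl⟩
      change T ((T - 1) y) + (T - 1) y = 0
      simp only [LinearMap.sub_apply, Module.End.one_apply, map_sub, hT]
      abel
  rw [h, add_comm]
  exact LinearMap.finrank_range_add_finrank_ker (T - 1)

/-- the kernel of the transpose has the same dimension -/
lemma finrank_ker_dualMap [Module.Finite k X] (S : X →ₗ[k] X) :
    finrank k ↥(LinearMap.ker S.dualMap) = finrank k ↥(LinearMap.ker S) := by
  have h1 := LinearMap.finrank_range_add_finrank_ker S
  have h2 := LinearMap.finrank_range_add_finrank_ker S.dualMap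
  rw [LinearMap.finrank_range_dualMap_eq_finrank_range, Subspace.dual_finrank_eq] at h2
  omega

/-- an involution `c` with `χ(c) = -1`, `2 ≠ 0`: `dim (V^*(χ))^c = dim V - dim V^c` -/
theorem finrank_invariants_dualTwist_invol' [Module.Finite k X] (h2 : (2 : k) ≠ 0)
    (σ : Representation k G X) (χ : G →* kˣ) (c : G) (hc : c * c = 1) (hχ : χ c = -1) :
    finrank k ↥(LinearMap.ker ((σ.dual.twist χ) c - 1)) + finrank k ↥(LinearMap.ker (σ c - 1)) =
      finrank k X := by
  have hcinv : c⁻¹ = c := inv_eq_of_mul_eq_one_left hc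
  have hT : ∀ x, σ c (σ c x) = x := fun x => by
    rw [← Module.End.mul_apply, ← map_mul, hc, map_one, Module.End.one_apply]
  have e : LinearMap.ker ((σ.dual.twist χ) c - 1) = LinearMap.ker (σ c + 1).dualMap := by
    ext l
    rw [LinearMap.mem_ker, LinearMap.mem_ker]
    have e1 : ((σ.dual.twist χ) c - 1) l = -((σ c + 1).dualMap l) := by
      refine LinearMap.ext fun x => ?_
      rw [LinearMap.sub_apply, LinearMap.sub_apply, dualTwist_apply, hcinv, hχ]
      simp only [Units.val_neg, Units.val_one, Module.End.one_apply, LinearMap.neg_apply,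
        LinearMap.dualMap_apply, LinearMap.add_apply, map_add]
      ring
    rw [e1, neg_eq_zero]
  rw [e, finrank_ker_dualMap, add_comm]
  exact finrank_ker_invol h2 (σ c) hT

/-- `V ↦ dim V^c` is additive for an involution `c` (`2 ≠ 0`) -/
theorem finrank_ker_invol_ses' [Module.Finite k B] (h2 : (2 : k) ≠ 0) {σA : Representation k G A}
    {σB : Representation k G B} {σC : Representation k G C} {i : A →ₗ[k] B} {π : B →ₗ[k] C}
    (h : IsSES σA σB σC i π) (c : G) (hc : c * c = 1) :
    finrank k ↥(LinearMap.ker (σB c - 1)) =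
      finrank k ↥(LinearMap.ker (σA c - 1)) + finrank k ↥(LinearMap.ker (σC c - 1)) := by
  have hT : ∀ x, σB c (σB c x) = x := fun x => by
    rw [← Module.End.mul_apply, ← map_mul, hc, map_one, Module.End.one_apply]
  have memk : ∀ {V : Type} [AddCommGroup V] [Module k V] (T : V →ₗ[k] V) (v : V),
      v ∈ LinearMap.ker (T - 1) ↔ T v = v := by
    intro V _ _ T v
    rw [LinearMap.mem_ker, LinearMap.sub_apply, Module.End.one_apply, sub_eq_zero]
  let π' : ↥(LinearMap.ker (σB c - 1)) →ₗ[k] ↥(LinearMap.ker (σC c - 1)) :=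
    (π.comp (LinearMap.ker (σB c - 1)).subtype).codRestrict _ fun b => by
      rw [memk]
      change σC c (π (b : B)) = π (b : B)
      rw [← h.π_equiv, (memk _ _).1 b.2]
  let i' : ↥(LinearMap.ker (σA c - 1)) →ₗ[k] ↥(LinearMap.ker (σB c - 1)) :=
    (i.comp (LinearMap.ker (σA c - 1)).subtype).codRestrict _ fun a => by
      rw [memk]
      change σB c (i (a : A)) = i (a : A)
      rw [← h.i_equiv, (memk _ _).1 a.2]
  have hi' : Function.Injective i' := fun a a' haa =>
    Subtype.ext (h.inj (congrArg Subtype.val haa))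
  have hπ' : Function.Surjective π' := by
    rintro ⟨z, hz⟩
    rw [memk] at hz
    obtain ⟨b, rfl⟩ := h.surj z
    refine ⟨⟨(2 : k)⁻¹ • (b + σB c b), ?_⟩, Subtype.ext ?_⟩
    · rw [memk, map_smul, map_add, hT, add_comm]
    · change π ((2 : k)⁻¹ • (b + σB c b)) = π b
      rw [map_smul, map_add, h.π_equiv, hz, ← two_smul k (π b), smul_smul, inv_mul_cancel₀ h2,
        one_smul]
  have hex : LinearMap.ker π' = LinearMap.range i' := by
    ext b
    constructor
    · intro hb
      have hb' : π (b : B) = 0 := congrArg Subtype.val hb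
      obtain ⟨a, ha⟩ := (h.exact _).1 hb'
      refine ⟨⟨a, ?_⟩, Subtype.ext ha⟩
      rw [memk]
      apply h.inj
      rw [h.i_equiv, ha, (memk _ _).1 b.2]
    · rintro ⟨a, rfl⟩
      apply Subtype.ext
      exact (h.exact _).2 ⟨a, rfl⟩
  have h1 := LinearMap.finrank_range_add_finrank_ker π'
  rw [LinearMap.range_eq_top.2 hπ', finrank_top, hex, LinearMap.finrank_range_of_inj hi'] at h1
  omega

end Fermat.Agent.S56.EC
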