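import Fermat.Agent.S56.EC.HQ.Defs

/-!
# S56 / EC / HQ : WP EC-H4.   `dim (Q^*)^D = dim Q^D` for projective `Q`.

`HasTr ρ` : there is a `k`-linear `θ` with `∑_g g θ g⁻¹ = 1` ("relative trace one").  It holds for the regular representation
(`θ F = F(1) δ_1`), passes to powers, isomorphic representations, direct summands and to subgroups (coset representatives).
If `HasTr ρ` then, with `N = ∑_g ρ g` and `I = span {g v - v}`:  `V^G = N V` (`v = ∑ g θ g⁻¹ v = N (θ v)`) and `ker N = I`
(`v = ∑ g θ g⁻¹ v ≡ ∑ θ g⁻¹ v = θ (N v)` modulo `I`), so `dim V^G = dim V - dim I = dim I^⊥ = dim (V^*)^G`.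
-/

set_option autoImplicit false

namespace Fermat.Agent.S56.EC

open Fermat.Agent.CFT (IsSES IsoRep)
open Module

namespace NormAux

variable {k : Type} [Field k] {G : Type} [Group G]
  {V W : Type} [AddCommGroup V] [Module k V] [AddCommGroup W] [Module k W]

/-- relative trace one -/
def HasTr [Fintype G] (ρ : Representation k G V) : Prop :=
  ∃ θ : V →ₗ[k] V, ∀ v, ∑ g : G, ρ g (θ (ρ g⁻¹ v)) = v

lemma hasTr_reg [Fintype G] [DecidableEq G] : HasTr (regRep k G) := by
  refine ⟨(LinearMap.single k (fun _ : G => k) 1).comp (LinearMap.proj 1), fun F => ?_⟩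
  funext x
  rw [Finset.sum_apply, Finset.sum_eq_single x]
  · simp
  · intro g _ hg
    have : g⁻¹ * x ≠ 1 := by
      intro h
      apply hg
      rw [inv_mul_eq_one] at h
      exact h
    simp [Pi.single_eq_of_ne this]
  · simp

lemma HasTr.pow [Fintype G] (ι : Type) {ρ : Representation k G V} (h : HasTr ρ) :
    HasTr (powRep ι ρ) := by
  obtain ⟨θ, hθ⟩ := h
  refine ⟨θ.compLeft ι, fun F => ?_⟩
  funext i
  rw [Finset.sum_apply]
  exact hθ (F i)

lemma HasTr.of_iso [Fintype G] {ρ : Representation k G V} {σ : Representation k G W}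
    (e : IsoRep ρ σ) (h : HasTr ρ) : HasTr σ := by
  obtain ⟨e, he⟩ := e
  obtain ⟨θ, hθ⟩ := h
  have he' : ∀ g w, e.symm (σ g w) = ρ g (e.symm w) := by
    intro g w
    apply e.injective
    rw [he]
    simp
  refine ⟨e.toLinearMap.comp (θ.comp e.symm.toLinearMap), fun w => ?_⟩
  have := congrArg e (hθ (e.symm w))
  rw [map_sum, e.apply_symm_apply] at this
  conv_rhs => rw [← this]
  refine Finset.sum_congr rfl fun g _ => ?_
  simp only [LinearMap.comp_apply, LinearEquiv.coe_coe]
  rw [he, he']

lemma HasTr.of_prod [Fintype G] {ρ : Representation k G V} {σ : Representation k G W}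
    (h : HasTr (prodRep ρ σ)) : HasTr ρ := by
  obtain ⟨θ, hθ⟩ := h
  refine ⟨(LinearMap.fst k V W).comp (θ.comp (LinearMap.inl k V W)), fun v => ?_⟩
  have := congrArg Prod.fst (hθ (v, 0))
  rw [Prod.fst_sum] at this
  simpa using this

lemma HasTr.res [Fintype G] (D : Subgroup G) [Fintype D] {ρ : Representation k G V} (h : HasTr ρ) :
    HasTr (resRep D.subtype ρ) := by
  classical
  obtain ⟨θ, hθ⟩ := h
  obtain ⟨T, hT, -⟩ := D.exists_isComplement_right 1
  have := Fintype.ofFinite T
  refine ⟨∑ t : T, (ρ t).comp (θ.comp (ρ (t : G)⁻¹)), fun v => ?_⟩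
  conv_rhs => rw [← hθ v]
  rw [← (Equiv.ofBijective _ hT).sum_comp, Fintype.sum_prod_type]
  refine Finset.sum_congr rfl fun d _ => ?_
  simp only [LinearMap.sum_apply, LinearMap.comp_apply, map_sum]
  refine Finset.sum_congr rfl fun t _ => ?_
  simp

lemma hasTr_of_isProj [Fintype G] {ρ : Representation k G V} (h : IsProj ρ) : HasTr ρ := by
  classical
  obtain ⟨V₂, _, _, ρ₂, ι, _, hiso⟩ := h
  exact HasTr.of_prod (HasTr.of_iso (isoRep_symm hiso) (hasTr_reg.pow ι))

/-- the norm -/
noncomputable def nrm [Fintype G] (ρ : Representation k G V) : V →ₗ[k] V := ∑ g : G, ρ g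

lemma nrm_apply [Fintype G] (ρ : Representation k G V) (v : V) : nrm ρ v = ∑ g : G, ρ g v := by
  simp [nrm]

lemma apply_nrm [Fintype G] (ρ : Representation k G V) (g : G) (v : V) :
    ρ g (nrm ρ v) = nrm ρ v := by
  rw [nrm_apply, map_sum]
  refine Fintype.sum_equiv (Equiv.mulLeft g) _ _ fun h => ?_
  simp

lemma nrm_apply_apply [Fintype G] (ρ : Representation k G V) (g : G) (v : V) :
    nrm ρ (ρ g v) = nrm ρ v := by
  rw [nrm_apply, nrm_apply]
  refine Fintype.sum_equiv (Equiv.mulRight g) _ _ fun h => ?_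
  simp

/-- the augmentation submodule -/
def aug (ρ : Representation k G V) : Submodule k V :=
  Submodule.span k {x | ∃ (g : G) (v : V), x = ρ g v - v}

lemma range_nrm [Fintype G] {ρ : Representation k G V} (h : HasTr ρ) :
    LinearMap.range (nrm ρ) = ρ.invariants := by
  obtain ⟨θ, hθ⟩ := h
  apply le_antisymm
  · rintro _ ⟨v, rfl⟩
    exact fun g => apply_nrm ρ g v
  · intro v hv
    refine ⟨θ v, ?_⟩
    rw [nrm_apply]
    conv_rhs => rw [← hθ v]
    refine Finset.sum_congr rfl fun g _ => ?_
    rw [hv g⁻¹]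

lemma ker_nrm [Fintype G] {ρ : Representation k G V} (h : HasTr ρ) :
    LinearMap.ker (nrm ρ) = aug ρ := by
  obtain ⟨θ, hθ⟩ := h
  apply le_antisymm
  · intro v hv
    rw [LinearMap.mem_ker] at hv
    have h1 : ∑ g : G, θ (ρ g⁻¹ v) = 0 := by
      rw [← map_sum]
      have : ∑ g : G, ρ g⁻¹ v = nrm ρ v := by
        rw [nrm_apply]
        exact Fintype.sum_equiv (Equiv.inv G) _ _ fun h => rfl
      rw [this, hv, map_zero]
    have h2 : v = ∑ g : G, (ρ g (θ (ρ g⁻¹ v)) - θ (ρ g⁻¹ v)) := by
      rw [Finset.sum_sub_distrib, h1, sub_zero, hθ]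
    rw [h2]
    exact Submodule.sum_mem _ fun g _ => Submodule.subset_span ⟨g, _, rfl⟩
  · rw [aug, Submodule.span_le]
    rintro _ ⟨g, v, rfl⟩
    rw [SetLike.mem_coe, LinearMap.mem_ker, map_sub, nrm_apply_apply, sub_self]

lemma dual_invariants_eq (ρ : Representation k G V) :
    ρ.dual.invariants = (aug ρ).dualAnnihilator := by
  ext l
  rw [Representation.mem_invariants, Submodule.mem_dualAnnihilator]
  constructor
  · intro h w hw
    induction hw using Submodule.span_induction with
    | mem x hx =>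
      obtain ⟨g, v, rfl⟩ := hx
      have := congrArg (fun m : Dual k V => m v) (h g⁻¹)
      simp only [Representation.dual_apply, inv_inv] at this
      rw [map_sub, sub_eq_zero]
      exact this
    | zero => exact map_zero l
    | add x y _ _ hx hy => rw [map_add, hx, hy, add_zero]
    | smul a x _ hx => rw [map_smul, hx, smul_zero]
  · intro h g
    ext v
    have := h (ρ g⁻¹ v - v) (Submodule.subset_span ⟨g⁻¹, v, rfl⟩)
    rw [map_sub, sub_eq_zero] at this
    rw [Representation.dual_apply]
    exact this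

theorem finrank_dual_invariants [Fintype G] [Module.Finite k V] {ρ : Representation k G V}
    (h : HasTr ρ) : finrank k ↥ρ.dual.invariants = finrank k ↥ρ.invariants := by
  have h1 := LinearMap.finrank_range_add_finrank_ker (nrm ρ)
  have h2 := Subspace.finrank_add_finrank_dualAnnihilator_eq (aug ρ)
  rw [range_nrm h, ker_nrm h] at h1
  rw [dual_invariants_eq]
  omega

end NormAux

/-- **EC-H4** -/
theorem finrank_invariants_dual_of_isProj_aux {k : Type} [Field k] {G : Type} [Group G] {Q : Type}
    [AddCommGroup Q] [Module k Q] [Finite G] [Module.Finite k Q]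
    {σQ : Representation k G Q} (hQ : IsProj σQ) (D : Subgroup G) :
    finrank k ↥(resRep D.subtype σQ.dual).invariants =
      finrank k ↥(resRep D.subtype σQ).invariants := by
  have := Fintype.ofFinite G
  have := Fintype.ofFinite D
  have e : resRep D.subtype σQ.dual = (resRep D.subtype σQ).dual := by
    ext d : 1
    rw [Representation.dual_apply]
    change σQ.dual (d : G) = _
    rw [Representation.dual_apply]
    rfl
  rw [e]
  exact NormAux.finrank_dual_invariants ((NormAux.hasTr_of_isProj hQ).res D)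

end Fermat.Agent.S56.EC
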