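import Fermat.Agent.S56.EC.HQ.Defs
import Fermat.Agent.S56.EC.HQ.Norm
import Fermat.Agent.S56.EC.HQ.H3
import Fermat.Agent.S56.EC.HQ.H5

/-!
# S56 / EC / HQ : WPs EC-H1 .. EC-H5.   The calculus of `⟨Q,X⟩ = dim Hom_G(Q,X)`;  `X ↦ ⟨Q,X⟩` is an additive function for projective `Q`.
Mathlib only.
-/

set_option autoImplicit false

namespace Fermat.Agent.S56.EC

open Fermat.Agent.CFT (IsSES IsoRep chiRep)
open Module

variable {k : Type} [Field k] {G : Type} [Group G]
  {Q Q' X X' A B C : Type} [AddCommGroup Q] [Module k Q] [AddCommGroup Q'] [Module k Q']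
  [AddCommGroup X] [Module k X] [AddCommGroup X'] [Module k X']
  [AddCommGroup A] [Module k A] [AddCommGroup B] [Module k B] [AddCommGroup C] [Module k C]

/-! ### EC-H1 : formal properties -/

/-- transport of a submodule along a linear equivalence -/
lemma homAux_finrank_eq_of_equiv {M M' : Type} [AddCommGroup M] [Module k M] [AddCommGroup M']
    [Module k M'] (E : M ≃ₗ[k] M') (p : Submodule k M) (p' : Submodule k M')
    (h : ∀ x, x ∈ p ↔ E x ∈ p') : finrank k ↥p = finrank k ↥p' := by
  have : p' = p.map E.toLinearMap := by
    ext y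
    constructor
    · intro hy
      refine ⟨E.symm y, (h _).2 (by simpa using hy), by simp⟩
    · rintro ⟨x, hx, rfl⟩
      exact (h x).1 hx
  rw [this, LinearEquiv.finrank_map_eq]

lemma homDim_iso_left {σQ : Representation k G Q} {σQ' : Representation k G Q'}
    (h : IsoRep σQ σQ') (σX : Representation k G X) : homDim σQ σX = homDim σQ' σX := by
  obtain ⟨e, he⟩ := h
  refine homAux_finrank_eq_of_equiv (e.arrowCongr (LinearEquiv.refl k X)) _ _ fun φ => ?_
  simp only [mem_eqHom, LinearEquiv.arrowCongr_apply, LinearEquiv.refl_apply]
  constructor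
  · intro hφ g q'
    have h1 : e.symm (σQ' g q') = σQ g (e.symm q') := by
      apply e.injective
      rw [he]
      simp
    rw [h1, hφ]
  · intro hφ g q
    have := hφ g (e q)
    rw [← he] at this
    simpa using this

lemma homDim_iso_right (σQ : Representation k G Q) {σX : Representation k G X}
    {σX' : Representation k G X'} (h : IsoRep σX σX') : homDim σQ σX = homDim σQ σX' := by
  obtain ⟨e, he⟩ := h
  refine homAux_finrank_eq_of_equiv ((LinearEquiv.refl k Q).arrowCongr e) _ _ fun φ => ?_
  simp only [mem_eqHom, LinearEquiv.arrowCongr_apply, LinearEquiv.refl_symm, LinearEquiv.refl_apply]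
  constructor
  · intro hφ g q
    rw [hφ, he]
  · intro hφ g q
    apply e.injective
    rw [hφ, he]

lemma homDim_prod_left [Module.Finite k Q] [Module.Finite k Q'] [Module.Finite k X]
    (σQ : Representation k G Q) (σQ' : Representation k G Q') (σX : Representation k G X) :
    homDim (prodRep σQ σQ') σX = homDim σQ σX + homDim σQ' σX := by
  unfold homDim
  rw [← Module.finrank_prod]
  refine LinearEquiv.finrank_eq
    { toFun := fun φ => (⟨φ.1.comp (LinearMap.inl k Q Q'), fun g q => by
          have := φ.2 g (q, 0)
          simpa using this⟩,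
        ⟨φ.1.comp (LinearMap.inr k Q Q'), fun g q => by
          have := φ.2 g (0, q)
          simpa using this⟩)
      map_add' := fun φ ψ => rfl
      map_smul' := fun c φ => rfl
      invFun := fun φ => ⟨φ.1.1.coprod φ.2.1, fun g q => by
          simp only [prodRep_apply, LinearMap.coprod_apply, map_add]
          rw [φ.1.2 g q.1, φ.2.2 g q.2]⟩
      left_inv := fun φ => by
        apply Subtype.ext
        apply LinearMap.ext
        rintro ⟨a, b⟩
        simp only [LinearMap.coprod_apply, LinearMap.comp_apply, LinearMap.inl_apply,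
          LinearMap.inr_apply, ← map_add, Prod.mk_add_mk, add_zero, zero_add]
      right_inv := fun φ => by
        apply Prod.ext <;> apply Subtype.ext <;> apply LinearMap.ext <;> intro a <;> simp }

lemma homDim_pow_left [Module.Finite k Q] [Module.Finite k X] (ι : Type) [Finite ι]
    (σQ : Representation k G Q) (σX : Representation k G X) :
    homDim (powRep ι σQ) σX = Nat.card ι * homDim σQ σX := by
  classical
  have := Fintype.ofFinite ι
  unfold homDim
  have h1 : finrank k (ι → ↥(eqHom σQ σX)) = Nat.card ι * finrank k ↥(eqHom σQ σX) := by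
    rw [Module.finrank_pi_fintype]
    simp [Nat.card_eq_fintype_card]
  rw [← h1]
  refine LinearEquiv.finrank_eq
    { toFun := fun φ i => ⟨φ.1.comp (LinearMap.single k (fun _ : ι => Q) i), fun g q => by
          have := φ.2 g (Pi.single i q)
          have h2 : powRep ι σQ g (Pi.single i q) = Pi.single i (σQ g q) := by
            ext j
            rw [powRep_apply]
            by_cases hj : j = i
            · subst hj
              simp
            · simp [Pi.single_eq_of_ne hj]
          rw [h2] at this
          simpa using this⟩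
      map_add' := fun φ ψ => rfl
      map_smul' := fun c φ => rfl
      invFun := fun φ => ⟨LinearMap.lsum k (fun _ : ι => Q) k (fun i => (φ i).1), fun g q => by
          simp only [LinearMap.lsum_apply, LinearMap.sum_apply, LinearMap.comp_apply,
            LinearMap.proj_apply, powRep_apply, map_sum]
          exact Finset.sum_congr rfl fun i _ => (φ i).2 g (q i)⟩
      left_inv := fun φ => by
        apply Subtype.ext
        apply LinearMap.pi_ext'
        intro i
        ext q
        simp only [LinearMap.lsum_apply, LinearMap.comp_apply, LinearMap.sum_apply,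
          LinearMap.proj_apply, LinearMap.single_apply]
        rw [Finset.sum_eq_single i]
        · simp
        · intro j _ hj
          rw [Pi.single_eq_of_ne hj, Pi.single_zero, map_zero]
        · simp
      right_inv := fun φ => by
        funext i
        apply Subtype.ext
        ext q
        simp only [LinearMap.lsum_apply, LinearMap.comp_apply, LinearMap.sum_apply,
          LinearMap.proj_apply, LinearMap.single_apply]
        rw [Finset.sum_eq_single i]
        · simp
        · intro j _ hj
          rw [Pi.single_eq_of_ne hj, map_zero]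
        · simp }

/-- equivariance may be tested after a surjection `f : H → G` -/
lemma homDim_comp {H : Type} [Group H] (f : H →* G) (hf : Function.Surjective f)
    (σQ : Representation k G Q) (σX : Representation k G X) :
    homDim (σQ.comp f) (σX.comp f) = homDim σQ σX := by
  have : eqHom (σQ.comp f) (σX.comp f) = eqHom σQ σX := by
    ext φ
    simp only [mem_eqHom]
    constructor
    · intro h g q
      obtain ⟨h', rfl⟩ := hf g
      exact h h' q
    · intro h g q
      exact h (f g) q
  unfold homDim
  rw [this]

lemma homDim_twist (χ : G →* kˣ) (σQ : Representation k G Q) (σX : Representation k G X) :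
    homDim (σQ.twist χ) (σX.twist χ) = homDim σQ σX := by
  have : eqHom (σQ.twist χ) (σX.twist χ) = eqHom σQ σX := by
    ext φ
    simp only [mem_eqHom, Representation.twist_apply_apply, map_smul]
    constructor
    · intro h g q
      have h1 := h g q
      exact smul_right_injective X (χ g).ne_zero h1
    · intro h g q
      rw [h]
  unfold homDim
  rw [this]

/-- `Hom_G(k[G],X) = X`: `φ ↦ φ(δ_1)`. -/
theorem homDim_reg [Finite G] (σX : Representation k G X) :
    homDim (regRep k G) σX = finrank k X := by
  classical
  have := Fintype.ofFinite G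
  have hδ : ∀ g h : G, regRep k G g (Pi.single h 1) = Pi.single (g * h) 1 := by
    intro g h
    ext x
    rw [funRep_apply]
    by_cases hx : x = g * h
    · subst hx
      simp
    · have : g⁻¹ • x ≠ h := by
        intro h'
        apply hx
        rw [← h']
        simp
      rw [Pi.single_eq_of_ne hx, Pi.single_eq_of_ne this]
      simp
  unfold homDim
  refine LinearEquiv.finrank_eq (LinearEquiv.ofBijective
    { toFun := fun φ => φ.1 (Pi.single 1 1)
      map_add' := fun φ ψ => rfl
      map_smul' := fun c φ => rfl } ⟨?_, ?_⟩)
  · rw [← LinearMap.ker_eq_bot, LinearMap.ker_eq_bot']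
    intro φ hφ
    change φ.1 (Pi.single 1 1) = 0 at hφ
    apply Subtype.ext
    apply LinearMap.pi_ext'
    intro g
    ext
    have h1 := φ.2 g (Pi.single 1 1)
    rw [hδ, mul_one, hφ, map_zero] at h1
    simpa using h1
  · intro x
    refine ⟨⟨∑ g : G, (LinearMap.proj g : (G → k) →ₗ[k] k).smulRight (σX g x), fun h F => ?_⟩, ?_⟩
    · simp only [LinearMap.sum_apply, LinearMap.smulRight_apply, LinearMap.proj_apply, funRep_apply,
        map_sum, map_smul]
      refine (Fintype.sum_equiv (Equiv.mulLeft h) _ _ fun g => ?_).symm
      simp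
    · change (∑ g : G, (LinearMap.proj g : (G → k) →ₗ[k] k).smulRight (σX g x)) (Pi.single 1 1) = x
      simp only [LinearMap.sum_apply, LinearMap.smulRight_apply, LinearMap.proj_apply]
      rw [Finset.sum_eq_single 1]
      · simp
      · intro g _ hg
        rw [Pi.single_eq_of_ne hg, zero_smul]
      · simp

/-! ### EC-H2 : exactness -/

lemma homAux_finite_left [Module.Finite k B] {σA : Representation k G A}
    {σB : Representation k G B} {σC : Representation k G C} {i : A →ₗ[k] B} {π : B →ₗ[k] C}
    (h : IsSES σA σB σC i π) : Module.Finite k A :=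
  Module.Finite.of_injective i h.inj

lemma homAux_finite_right [Module.Finite k B] {σA : Representation k G A}
    {σB : Representation k G B} {σC : Representation k G C} {i : A →ₗ[k] B} {π : B →ₗ[k] C}
    (h : IsSES σA σB σC i π) : Module.Finite k C :=
  Module.Finite.of_surjective π h.surj

lemma homAux_finrank_ses [Module.Finite k B] {σA : Representation k G A}
    {σB : Representation k G B} {σC : Representation k G C} {i : A →ₗ[k] B} {π : B →ₗ[k] C}
    (h : IsSES σA σB σC i π) : finrank k B = finrank k A + finrank k C := by
  have h1 := LinearMap.finrank_range_add_finrank_ker π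
  have h2 : LinearMap.range π = ⊤ := LinearMap.range_eq_top.2 h.surj
  have h3 : LinearMap.ker π = LinearMap.range i := by
    ext x
    rw [LinearMap.mem_ker, h.exact, LinearMap.mem_range]
  rw [h2, h3, finrank_top, LinearMap.finrank_range_of_inj h.inj] at h1
  omega

/-- left exactness -/
theorem homDim_le [Module.Finite k Q] [Module.Finite k B] (σQ : Representation k G Q)
    {σA : Representation k G A} {σB : Representation k G B} {σC : Representation k G C}
    {i : A →ₗ[k] B} {π : B →ₗ[k] C} (h : IsSES σA σB σC i π) :
    homDim σQ σB ≤ homDim σQ σA + homDim σQ σC := by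
  have hA : Module.Finite k A := homAux_finite_left h
  have hC : Module.Finite k C := homAux_finite_right h
  unfold homDim
  let P : ↥(eqHom σQ σB) →ₗ[k] ↥(eqHom σQ σC) :=
    { toFun := fun φ => ⟨π.comp φ.1, fun g q => by
        simp only [LinearMap.comp_apply]
        rw [φ.2 g q, h.π_equiv]⟩
      map_add' := fun φ ψ => by
        apply Subtype.ext
        ext q
        simp
      map_smul' := fun c φ => by
        apply Subtype.ext
        ext q
        simp }
  let J : ↥(eqHom σQ σA) →ₗ[k] ↥(eqHom σQ σB) :=
    { toFun := fun ψ => ⟨i.comp ψ.1, fun g q => by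
        simp only [LinearMap.comp_apply]
        rw [ψ.2 g q, h.i_equiv]⟩
      map_add' := fun φ ψ => by
        apply Subtype.ext
        ext q
        simp
      map_smul' := fun c φ => by
        apply Subtype.ext
        ext q
        simp }
  have hker : LinearMap.ker P ≤ LinearMap.range J := by
    intro φ hφ
    have hφ' : ∀ q, π (φ.1 q) = 0 := by
      intro q
      have := congrArg (fun ψ : ↥(eqHom σQ σC) => ψ.1 q) (LinearMap.mem_ker.1 hφ)
      exact this
    have hmem : ∀ q, φ.1 q ∈ LinearMap.range i := fun q => by
      obtain ⟨a, ha⟩ := (h.exact _).1 (hφ' q)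
      exact ⟨a, ha⟩
    let ψ : Q →ₗ[k] A :=
      (LinearEquiv.ofInjective i h.inj).symm.toLinearMap.comp (φ.1.codRestrict _ hmem)
    have hψ : ∀ q, i (ψ q) = φ.1 q := by
      intro q
      have := LinearEquiv.apply_symm_apply (LinearEquiv.ofInjective i h.inj)
        (φ.1.codRestrict _ hmem q)
      exact congrArg Subtype.val this
    refine ⟨⟨ψ, fun g q => ?_⟩, ?_⟩
    · apply h.inj
      rw [hψ, φ.2 g q, h.i_equiv, hψ]
    · apply Subtype.ext
      ext q
      exact hψ q
  have h1 := LinearMap.finrank_range_add_finrank_ker P
  have h2 : finrank k ↥(LinearMap.range P) ≤ finrank k ↥(eqHom σQ σC) := Submodule.finrank_le _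
  have h3 : finrank k ↥(LinearMap.ker P) ≤ finrank k ↥(LinearMap.range J) :=
    Submodule.finrank_mono hker
  have h4 : finrank k ↥(LinearMap.range J) ≤ finrank k ↥(eqHom σQ σA) :=
    LinearMap.finrank_range_le J
  omega

/-- exactness for projective `Q` (complement trick: `Q × Q₂ ≅ k[G]^ι`; `homDim_le` for `Q` and `Q₂`, equality of the sums by
`homDim_reg` and `finrank B = finrank A + finrank C`). -/
theorem homDim_ses [Finite G] [Module.Finite k Q] [Module.Finite k B] {σQ : Representation k G Q}
    (hQ : IsProj σQ) {σA : Representation k G A} {σB : Representation k G B}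
    {σC : Representation k G C} {i : A →ₗ[k] B} {π : B →ₗ[k] C} (h : IsSES σA σB σC i π) :
    homDim σQ σB = homDim σQ σA + homDim σQ σC := by
  have hA : Module.Finite k A := homAux_finite_left h
  have hC : Module.Finite k C := homAux_finite_right h
  obtain ⟨V₂, _, _, ρ₂, ι, _, hiso⟩ := hQ
  have hV₂ : Module.Finite k V₂ := by
    obtain ⟨e, -⟩ := hiso
    have : Module.Finite k (Q × V₂) := Module.Finite.equiv e.symm
    exact Module.Finite.of_surjective (LinearMap.snd k Q V₂) LinearMap.snd_surjective
  have key : ∀ (Y : Type) [AddCommGroup Y] [Module k Y] [Module.Finite k Y]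
      (σY : Representation k G Y),
      homDim σQ σY + homDim ρ₂ σY = Nat.card ι * finrank k Y := by
    intro Y _ _ _ σY
    rw [← homDim_prod_left, homDim_iso_left hiso, homDim_pow_left, homDim_reg]
  have kA := key A σA
  have kB := key B σB
  have kC := key C σC
  have l1 := homDim_le σQ h
  have l2 := homDim_le ρ₂ h
  rw [homAux_finrank_ses h, mul_add] at kB
  omega

/-- the additive function `X ↦ ⟨Q,X⟩` -/
noncomputable def homFun [Finite G] [Module.Finite k Q] (σQ : Representation k G Q)
    (hQ : IsProj σQ) : AddFun k G where
  toFun X _ _ σX := (homDim σQ σX : ℤ)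
  iso σX σX' h := by rw [homDim_iso_right σQ h]
  add σA σB σC i π h := by rw [homDim_ses hQ h]; push_cast; ring

@[simp] lemma homFun_ev [Finite G] [Module.Finite k Q] (σQ : Representation k G Q) (hQ : IsProj σQ)
    (σX : Representation k G X) : (homFun σQ hQ).ev σX = (homDim σQ σX : ℤ) := rfl

/-! ### EC-H3 : Frobenius reciprocity -/

/-- `Hom_G(Q, k[G/D]) = Hom_D(Q,k) = (Q^*)^D`: `φ ↦ (q ↦ φ q (1 D))`. -/
theorem homDim_funRep_quot_dual [Module.Finite k Q] (σQ : Representation k G Q) (D : Subgroup G) :
    homDim σQ (funRep (G ⧸ D) (1 : Representation k G k)) =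
      finrank k ↥(resRep D.subtype σQ.dual).invariants :=
  homDim_funRep_quot_dual' σQ D

/-! ### EC-H4 : invariants and coinvariants of projectives -/

/-- `dim (Q^*)^D = dim Q^D` for projective `Q`.  Proof (complement trick twice): `N := ∑_{d ∈ D} σQ d`, `r(Q) := rank N`.
`r(Q) ≤ dim Q^D` (the image of `N` is invariant), `r(Q) ≤ dim (Q^*)^D` (`N` kills all `d q - q`, and `(Q^*)^D` is the annihilator of their span);
all three functions are additive in `Q` for `prodRep`/`powRep`, invariant under `IsoRep`, and equal to `[G:D]` for `Q = k[G]`. -/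
theorem finrank_invariants_dual_of_isProj [Finite G] [Module.Finite k Q]
    {σQ : Representation k G Q} (hQ : IsProj σQ) (D : Subgroup G) :
    finrank k ↥(resRep D.subtype σQ.dual).invariants =
      finrank k ↥(resRep D.subtype σQ).invariants :=
  finrank_invariants_dual_of_isProj_aux hQ D

/-- **(H5)** -/
theorem homDim_funRep_quot [Finite G] [Module.Finite k Q] {σQ : Representation k G Q}
    (hQ : IsProj σQ) (D : Subgroup G) :
    homDim σQ (funRep (G ⧸ D) (1 : Representation k G k)) =
      finrank k ↥(resRep D.subtype σQ).invariants := by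
  rw [homDim_funRep_quot_dual, finrank_invariants_dual_of_isProj hQ]

/-! ### EC-H5 : duals and twists -/

/-- the twisted dual of the regular representation is regular: `λ ↦ (g ↦ χ(g)⁻¹ λ(δ_g))` -/
theorem isoRep_reg_dualTwist [Finite G] (χ : G →* kˣ) :
    IsoRep ((regRep k G).dual.twist χ) (regRep k G) :=
  isoRep_reg_dualTwist' χ

/-- the twisted dual of a projective is projective -/
theorem IsProj.dualTwist [Finite G] [Module.Finite k Q] {σQ : Representation k G Q}
    (hQ : IsProj σQ) (χ : G →* kˣ) : IsProj (σQ.dual.twist χ) :=
  IsProj.dualTwist' hQ χ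

/-- `Hom_G(V^*(χ), k(χ)) = V^G` -/
theorem homDim_dualTwist_chiRep [Module.Finite k X] (σ : Representation k G X) (χ : G →* kˣ) :
    homDim (σ.dual.twist χ) (chiRep χ) = finrank k ↥σ.invariants :=
  homDim_dualTwist_chiRep' σ χ

/-- `Hom_G(Q,k) = (Q^*)^G`, so `= dim Q^G` for projective `Q` -/
theorem homDim_one [Finite G] [Module.Finite k Q] {σQ : Representation k G Q} (hQ : IsProj σQ) :
    homDim σQ (1 : Representation k G k) = finrank k ↥σQ.invariants := by
  rw [homDim_one_eq_dual, ← finrank_invariants_res_top σQ.dual,
    finrank_invariants_dual_of_isProj hQ ⊤, finrank_invariants_res_top]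

/-- an involution `c` with `χ(c) = -1`, `2 ≠ 0`: `dim (V^*(χ))^c = dim V - dim V^c` -/
theorem finrank_invariants_dualTwist_invol [Module.Finite k X] (h2 : (2 : k) ≠ 0)
    (σ : Representation k G X) (χ : G →* kˣ) (c : G) (hc : c * c = 1) (hχ : χ c = -1) :
    finrank k ↥(LinearMap.ker ((σ.dual.twist χ) c - 1)) + finrank k ↥(LinearMap.ker (σ c - 1)) =
      finrank k X :=
  finrank_invariants_dualTwist_invol' h2 σ χ c hc hχ

/-- `V ↦ dim V^c` is additive for an involution `c` (`2 ≠ 0`) -/
theorem finrank_ker_invol_ses [Module.Finite k B] (h2 : (2 : k) ≠ 0) {σA : Representation k G A}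
    {σB : Representation k G B} {σC : Representation k G C} {i : A →ₗ[k] B} {π : B →ₗ[k] C}
    (h : IsSES σA σB σC i π) (c : G) (hc : c * c = 1) :
    finrank k ↥(LinearMap.ker (σB c - 1)) =
      finrank k ↥(LinearMap.ker (σA c - 1)) + finrank k ↥(LinearMap.ker (σC c - 1)) :=
  finrank_ker_invol_ses' h2 h c hc

end Fermat.Agent.S56.EC
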