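import Fermat.Agent.S56.EC.Alg.Proj

/-!
# S56 / EC / HQ : definitions.   `⟨Q,X⟩ = dim Hom_G(Q,X)`, sub-representations, reduction modulo `p` of `ℤ[G]`-modules.
-/

set_option autoImplicit false

namespace Fermat.Agent.S56.EC

open Fermat.Agent.CFT (IsSES IsoRep)

section

variable {k : Type} [CommRing k] {G : Type} [Group G]

/-- equivariant linear maps -/
def eqHom {Q X : Type} [AddCommGroup Q] [Module k Q] [AddCommGroup X] [Module k X]
    (σQ : Representation k G Q) (σX : Representation k G X) : Submodule k (Q →ₗ[k] X) where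
  carrier := {φ | ∀ g q, φ (σQ g q) = σX g (φ q)}
  add_mem' := by
    intro a b ha hb g q
    simp only [LinearMap.add_apply, map_add, ha g q, hb g q]
  zero_mem' := by
    intro g q
    simp
  smul_mem' := by
    intro c a ha g q
    simp only [LinearMap.smul_apply, map_smul, ha g q]

lemma mem_eqHom {Q X : Type} [AddCommGroup Q] [Module k Q] [AddCommGroup X] [Module k X]
    {σQ : Representation k G Q} {σX : Representation k G X} {φ : Q →ₗ[k] X} :
    φ ∈ eqHom σQ σX ↔ ∀ g q, φ (σQ g q) = σX g (φ q) := Iff.rfl

/-- `⟨Q,X⟩ = dim Hom_G(Q,X)` -/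
noncomputable def homDim {Q X : Type} [AddCommGroup Q] [Module k Q] [AddCommGroup X] [Module k X]
    (σQ : Representation k G Q) (σX : Representation k G X) : ℕ :=
  Module.finrank k ↥(eqHom σQ σX)

/-- restriction along `f : H →* G` (`= ρ.comp f`, with the type `Representation`) -/
abbrev resRep {H : Type} [Group H] (f : H →* G) {V : Type} [AddCommGroup V] [Module k V]
    (ρ : Representation k G V) : Representation k H V := ρ.comp f

/-- the sub-representation on a stable submodule -/
def subRep {V : Type} [AddCommGroup V] [Module k V] (ρ : Representation k G V) (S : Submodule k V)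
    (hS : ∀ g, ∀ v ∈ S, ρ g v ∈ S) : Representation k G ↥S where
  toFun g := (ρ g).restrict (hS g)
  map_one' := by ext v : 2; simp
  map_mul' g h := by ext v : 2; simp

@[simp] lemma subRep_apply_coe {V : Type} [AddCommGroup V] [Module k V] (ρ : Representation k G V)
    (S : Submodule k V) (hS : ∀ g, ∀ v ∈ S, ρ g v ∈ S) (g : G) (v : ↥S) :
    ((subRep ρ S hS g v : ↥S) : V) = ρ g v := rfl

end

/-- `(X, σ, cl)` is a model of `E / p E` -/
structure IsModP (p : ℕ) {G : Type} [Group G] {E X : Type} [AddCommGroup E] [AddCommGroup X]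
    [Module (ZMod p) X] (τ : Representation ℤ G E) (σ : Representation (ZMod p) G X)
    (cl : E →+ X) : Prop where
  equiv : ∀ g e, cl (τ g e) = σ g (cl e)
  surj : Function.Surjective cl
  ker : ∀ e, cl e = 0 ↔ ∃ e', e = p • e'

end Fermat.Agent.S56.EC
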