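import Fermat.Agent.S56.EC.HQ.Defs
import Fermat.Agent.S56.EC.Alg.Devissage

/-!
# S56 / EC / HQ : WPs EC-L0 .. EC-L3.   The lattice lemma (Brauer-Nesbitt for lattices), in the Grothendieck group.  Mathlib only.

`ψ : A → B` an injective equivariant map of `ℤ[G]`-modules with finite cokernel and `B[p] ⊆ ψ(A)`.  Then `[A/p] = [B/p]`, i.e.
`Φ(A/p) = Φ(B/p)` for every additive function `Φ`.   `A/p`, `B/p` are given by arbitrary MODELS (`IsModP`).

Proof.  Induction on `#(B/ψA)`.  `C := ψA + pB`.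
* `C = B`: then `A/p → B/p` is an isomorphism (EC-L2): onto is clear; if `ψ a = p b`, let `m = #(B/ψA)`; `B/ψA = p (B/ψA)` so `p ∤ m`,
  `u m + v p = 1`, `b = u (m b) + v ψ a ∈ ψA`, `b = ψ a'`, `a = p a'`.
* `C ≠ B`: `(A → C)` has smaller index and `C[p] ⊆ B[p] ⊆ ψA`; `(C → B)` satisfies `pB ⊆ C`, `B[p] ⊆ C`: EC-L1.
EC-L1 (`pB ⊆ ψA`): `ψbar : XA → XB`.  `δ : B → XA`, `b ↦ clA (ψ⁻¹(p b))` induces an equivariant isomorphism `coker ψbar = B/ψA ≅ ker ψbar`
  (`δ b = 0 ⇒ p b = p ψ a ⇒ b - ψ a ∈ B[p] ⊆ ψA`), and `Φ(XA) - Φ(XB) = Φ(ker ψbar) - Φ(coker ψbar)` (`AddFun.ev_ker_coker`).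
-/

set_option autoImplicit false

namespace Fermat.Agent.S56.EC

open Fermat.Agent.CFT (IsSES IsoRep)

/-! ### EC-L0 : models of `E/p` -/

section

variable {p : ℕ} [Fact p.Prime] {G : Type} [Group G]

/-- two equivariant surjections with the same kernel have isomorphic targets -/
theorem isoRep_of_surj {B X X' : Type} [AddCommGroup B] [AddCommGroup X] [Module (ZMod p) X]
    [AddCommGroup X'] [Module (ZMod p) X'] {σ : Representation (ZMod p) G X}
    {σ' : Representation (ZMod p) G X'} (t : G → B → B) (f : B →+ X) (f' : B →+ X')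
    (hf : ∀ g b, f (t g b) = σ g (f b)) (hf' : ∀ g b, f' (t g b) = σ' g (f' b))
    (hs : Function.Surjective f) (hs' : Function.Surjective f')
    (hker : ∀ b, f b = 0 ↔ f' b = 0) : IsoRep σ σ' := by
  let e₀ : X →+ X' := f.liftOfSurjective hs ⟨f', fun b hb => (hker b).1 hb⟩
  have he₀ : ∀ b, e₀ (f b) = f' b := fun b =>
    AddMonoidHom.liftOfRightInverse_comp_apply f _ _ ⟨f', fun b hb => (hker b).1 hb⟩ b
  have hbij : Function.Bijective (AddMonoidHom.toZModLinearMap p e₀) := by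
    constructor
    · rw [injective_iff_map_eq_zero]
      intro x hx
      obtain ⟨b, rfl⟩ := hs x
      exact (hker b).2 ((he₀ b).symm.trans hx)
    · intro x'
      obtain ⟨b, rfl⟩ := hs' x'
      exact ⟨f b, he₀ b⟩
  refine ⟨LinearEquiv.ofBijective _ hbij, fun g x => ?_⟩
  obtain ⟨b, rfl⟩ := hs x
  show e₀ (σ g (f b)) = σ' g (e₀ (f b))
  rw [← hf, he₀, he₀, hf']

theorem exists_modP_aux {E X : Type} [AddCommGroup E] [AddCommGroup X] [Module (ZMod p) X]
    (τ : Representation ℤ G E) (cl : E →+ X) (hs : Function.Surjective cl)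
    (hker : ∀ e, cl e = 0 ↔ ∃ e', e = p • e') :
    ∃ σ : Representation (ZMod p) G X, IsModP p τ σ cl := by
  have hk : ∀ g : G, cl.ker ≤ (cl.comp (τ g).toAddMonoidHom).ker := by
    intro g e he
    obtain ⟨e', rfl⟩ := (hker e).1 he
    exact (hker _).2 ⟨τ g e', map_nsmul (τ g) p e'⟩
  let φ : G → (X →+ X) := fun g => cl.liftOfSurjective hs ⟨cl.comp (τ g).toAddMonoidHom, hk g⟩
  have hφ : ∀ g e, φ g (cl e) = cl (τ g e) := fun g e =>
    AddMonoidHom.liftOfRightInverse_comp_apply cl _ _ ⟨cl.comp (τ g).toAddMonoidHom, hk g⟩ e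
  let σ : Representation (ZMod p) G X :=
    { toFun := fun g => AddMonoidHom.toZModLinearMap p (φ g)
      map_one' := by
        ext x
        obtain ⟨e, rfl⟩ := hs x
        show φ 1 (cl e) = cl e
        rw [hφ, map_one]; rfl
      map_mul' := fun g g' => by
        ext x
        obtain ⟨e, rfl⟩ := hs x
        show φ (g * g') (cl e) = φ g (φ g' (cl e))
        rw [hφ, hφ, hφ, map_mul]; rfl }
  exact ⟨σ, fun g e => (hφ g e).symm, hs, hker⟩

theorem exists_modP {E : Type} [AddCommGroup E] (τ : Representation ℤ G E) :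
    ∃ (X : Type) (_ : AddCommGroup X) (_ : Module (ZMod p) X) (σ : Representation (ZMod p) G X)
      (cl : E →+ X), IsModP p τ σ cl := by
  let S : AddSubgroup E := (nsmulAddMonoidHom (α := E) p).range
  have hS : ∀ x : E ⧸ S, p • x = 0 := by
    intro x
    induction x using QuotientAddGroup.induction_on with
    | H e => exact (QuotientAddGroup.eq_zero_iff _).2 ⟨e, rfl⟩
  let inst : Module (ZMod p) (E ⧸ S) := AddCommGroup.zmodModule hS
  obtain ⟨σ, hσ⟩ := exists_modP_aux τ (QuotientAddGroup.mk' S) (QuotientAddGroup.mk'_surjective S)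
    (fun e => by
      rw [QuotientAddGroup.mk'_apply, QuotientAddGroup.eq_zero_iff]
      exact ⟨fun ⟨e', h⟩ => ⟨e', h.symm⟩, fun ⟨e', h⟩ => ⟨e', h.symm⟩⟩)
  exact ⟨E ⧸ S, inferInstance, inst, σ, QuotientAddGroup.mk' S, hσ⟩

theorem IsModP.unique {E X X' : Type} [AddCommGroup E] [AddCommGroup X] [Module (ZMod p) X]
    [AddCommGroup X'] [Module (ZMod p) X'] {τ : Representation ℤ G E}
    {σ : Representation (ZMod p) G X} {σ' : Representation (ZMod p) G X'} {cl : E →+ X}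
    {cl' : E →+ X'} (h : IsModP p τ σ cl) (h' : IsModP p τ σ' cl') : IsoRep σ σ' :=
  isoRep_of_surj (fun g e => τ g e) cl cl' h.equiv h'.equiv h.surj h'.surj
    (fun e => (h.ker e).trans (h'.ker e).symm)

/-- the map induced on models -/
theorem IsModP.exists_map {A B XA XB : Type} [AddCommGroup A] [AddCommGroup B] [AddCommGroup XA]
    [Module (ZMod p) XA] [AddCommGroup XB] [Module (ZMod p) XB] {τA : Representation ℤ G A}
    {τB : Representation ℤ G B} {σA : Representation (ZMod p) G XA}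
    {σB : Representation (ZMod p) G XB} {clA : A →+ XA} {clB : B →+ XB}
    (hA : IsModP p τA σA clA) (hB : IsModP p τB σB clB) (ψ : A →+ B)
    (hψ : ∀ g a, ψ (τA g a) = τB g (ψ a)) :
    ∃ ψbar : XA →ₗ[ZMod p] XB, (∀ a, ψbar (clA a) = clB (ψ a)) ∧
      ∀ g x, ψbar (σA g x) = σB g (ψbar x) := by
  have hker : clA.ker ≤ (clB.comp ψ).ker := by
    intro a ha
    obtain ⟨a', rfl⟩ := (hA.ker a).1 ha
    exact (hB.ker _).2 ⟨ψ a', map_nsmul ψ p a'⟩
  let e₀ : XA →+ XB := clA.liftOfSurjective hA.surj ⟨clB.comp ψ, hker⟩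
  have he₀ : ∀ a, e₀ (clA a) = clB (ψ a) := fun a =>
    AddMonoidHom.liftOfRightInverse_comp_apply clA _ _ ⟨clB.comp ψ, hker⟩ a
  refine ⟨AddMonoidHom.toZModLinearMap p e₀, he₀, fun g x => ?_⟩
  obtain ⟨a, rfl⟩ := hA.surj x
  show e₀ (σA g (clA a)) = σB g (e₀ (clA a))
  rw [← hA.equiv, he₀, he₀, hψ, hB.equiv]

/-- products of models -/
theorem IsModP.prod {A B XA XB : Type} [AddCommGroup A] [AddCommGroup B] [AddCommGroup XA]
    [Module (ZMod p) XA] [AddCommGroup XB] [Module (ZMod p) XB] {τA : Representation ℤ G A}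
    {τB : Representation ℤ G B} {σA : Representation (ZMod p) G XA}
    {σB : Representation (ZMod p) G XB} {clA : A →+ XA} {clB : B →+ XB}
    (hA : IsModP p τA σA clA) (hB : IsModP p τB σB clB) :
    IsModP p (prodRep τA τB) (prodRep σA σB) (clA.prodMap clB) := by
  refine ⟨fun g e => Prod.ext (hA.equiv g e.1) (hB.equiv g e.2), fun x => ?_, fun e => ?_⟩
  · obtain ⟨a, ha⟩ := hA.surj x.1
    obtain ⟨b, hb⟩ := hB.surj x.2
    exact ⟨(a, b), Prod.ext ha hb⟩
  · constructor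
    · intro h
      obtain ⟨a, ha⟩ := (hA.ker e.1).1 (congrArg Prod.fst h)
      obtain ⟨b, hb⟩ := (hB.ker e.2).1 (congrArg Prod.snd h)
      exact ⟨(a, b), Prod.ext ha hb⟩
    · rintro ⟨e', rfl⟩
      exact Prod.ext ((hA.ker _).2 ⟨e'.1, rfl⟩) ((hB.ker _).2 ⟨e'.2, rfl⟩)

/-- `ℤ[Y]/p = 𝔽_p[Y]` -/
theorem isModP_funRep (Y : Type) [MulAction G Y] [Finite Y] :
    IsModP p (funRep Y (1 : Representation ℤ G ℤ)) (funRep Y (1 : Representation (ZMod p) G (ZMod p)))
      ((Int.castAddHom (ZMod p)).compLeft Y) := by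
  refine ⟨fun g F => rfl, fun f => ?_, fun F => ?_⟩
  · choose F hF using fun y => ZMod.intCast_surjective (f y)
    exact ⟨F, funext hF⟩
  · constructor
    · intro h
      have h1 : ∀ y, (p : ℤ) ∣ F y := fun y =>
        (ZMod.intCast_zmod_eq_zero_iff_dvd (F y) p).1 (congrFun h y)
      choose F' hF' using h1
      refine ⟨F', funext fun y => ?_⟩
      rw [hF' y, Pi.smul_apply, nsmul_eq_mul]
    · rintro ⟨F', rfl⟩
      funext y
      show (((p • F') y : ℤ) : ZMod p) = 0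
      rw [Pi.smul_apply, nsmul_eq_mul]
      simp

/-- `ℤ/p = 𝔽_p` -/
theorem isModP_one :
    IsModP p (1 : Representation ℤ G ℤ) (1 : Representation (ZMod p) G (ZMod p))
      (Int.castAddHom (ZMod p)) := by
  refine ⟨fun g e => rfl, ZMod.intCast_surjective, fun e => ?_⟩
  rw [Int.coe_castAddHom, ZMod.intCast_zmod_eq_zero_iff_dvd]
  constructor
  · rintro ⟨e', rfl⟩
    exact ⟨e', by rw [nsmul_eq_mul]⟩
  · rintro ⟨e', rfl⟩
    exact ⟨e', by rw [nsmul_eq_mul]⟩

/-- an `𝔽_p`-module is its own reduction: `τ` is any `ℤ`-linear form of `σ` -/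
theorem isModP_self {X : Type} [AddCommGroup X] [Module (ZMod p) X]
    (σ : Representation (ZMod p) G X) (τ : Representation ℤ G X) (h : ∀ g x, τ g x = σ g x) :
    IsModP p τ σ (AddMonoidHom.id X) := by
  refine ⟨fun g e => h g e, fun x => ⟨x, rfl⟩, fun e => ?_⟩
  rw [AddMonoidHom.id_apply]
  constructor
  · rintro rfl
    exact ⟨0, (smul_zero p).symm⟩
  · rintro ⟨e', rfl⟩
    exact ZModModule.char_nsmul_eq_zero p e'

end

/-! ### EC-L1 -/

/-- `Φ(X) - Φ(Y) = Φ(ker f) - Φ(coker f)`, in the form: `K → X` injective with image `ker f`, `Y → C` surjective with kernel `im f`. -/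
theorem AddFun.ev_ker_coker {k : Type} [Field k] {G : Type} [Group G] (Φ : AddFun k G)
    {K X Y C : Type} [AddCommGroup K] [Module k K] [AddCommGroup X] [Module k X]
    [AddCommGroup Y] [Module k Y] [AddCommGroup C] [Module k C] [Module.Finite k X]
    [Module.Finite k Y] {σK : Representation k G K} {σX : Representation k G X}
    {σY : Representation k G Y} {σC : Representation k G C}
    (j : K →ₗ[k] X) (f : X →ₗ[k] Y) (q : Y →ₗ[k] C)
    (hj : ∀ g x, j (σK g x) = σX g (j x)) (hf : ∀ g x, f (σX g x) = σY g (f x))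
    (hq : ∀ g x, q (σY g x) = σC g (q x)) (hj0 : Function.Injective j)
    (hjf : ∀ x, f x = 0 ↔ ∃ y, j y = x) (hfq : ∀ y, q y = 0 ↔ ∃ x, f x = y)
    (hq0 : Function.Surjective q) :
    Φ.ev σX + Φ.ev σC = Φ.ev σY + Φ.ev σK := by
  have hst : ∀ g, ∀ y ∈ LinearMap.range f, σY g y ∈ LinearMap.range f := by
    rintro g _ ⟨x, rfl⟩
    exact ⟨σX g x, hf g x⟩
  have h1 : IsSES σK σX (subRep σY (LinearMap.range f) hst) j f.rangeRestrict :=
    ⟨hj, fun g x => Subtype.ext (hf g x), hj0, f.surjective_rangeRestrict, fun x => by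
      rw [← hjf x]
      exact ⟨fun h => congrArg Subtype.val h, fun h => Subtype.ext h⟩⟩
  have h2 : IsSES (subRep σY (LinearMap.range f) hst) σY σC (LinearMap.range f).subtype q :=
    ⟨fun g n => rfl, hq, Subtype.val_injective, hq0, fun y => by
      rw [hfq y]
      exact ⟨fun ⟨x, hx⟩ => ⟨⟨y, x, hx⟩, rfl⟩, fun ⟨n, hn⟩ => hn ▸ n.2⟩⟩
  have e1 := Φ.add _ _ _ _ _ h1
  have e2 := Φ.add _ _ _ _ _ h2
  show Φ.toFun X σX + Φ.toFun C σC = Φ.toFun Y σY + Φ.toFun K σK
  rw [e1, e2]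
  ring

variable {p : ℕ} [Fact p.Prime] {G : Type} [Group G]
  {A B XA XB : Type} [AddCommGroup A] [AddCommGroup B] [AddCommGroup XA]
  [Module (ZMod p) XA] [AddCommGroup XB] [Module (ZMod p) XB] [Module.Finite (ZMod p) XA]
  [Module.Finite (ZMod p) XB] {τA : Representation ℤ G A}
  {τB : Representation ℤ G B} {σA : Representation (ZMod p) G XA}
  {σB : Representation (ZMod p) G XB} {clA : A →+ XA} {clB : B →+ XB}

/-- the basic step `pB ⊆ ψA ⊆ B` -/
theorem AddFun.lattice_step (Φ : AddFun (ZMod p) G) (hA : IsModP p τA σA clA)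
    (hB : IsModP p τB σB clB) (ψ : A →+ B) (hψ : ∀ g a, ψ (τA g a) = τB g (ψ a))
    (hinj : Function.Injective ψ) (hp : ∀ b : B, p • b ∈ ψ.range)
    (htor : ∀ b : B, p • b = 0 → b ∈ ψ.range) : Φ.ev σA = Φ.ev σB := by
  obtain ⟨ψbar, hψbar, hψeq⟩ := hA.exists_map hB ψ hψ
  -- `δ₀ b = ψ⁻¹ (p b)`
  let δ₀ : B →+ A := (AddMonoidHom.ofInjective hinj).symm.toAddMonoidHom.comp
    ((nsmulAddMonoidHom (α := B) p).codRestrict ψ.range hp)
  have hδ₀ : ∀ b, ψ (δ₀ b) = p • b := fun b =>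
    AddMonoidHom.apply_ofInjective_symm hinj _
  have hδτ : ∀ g b, δ₀ (τB g b) = τA g (δ₀ b) := by
    intro g b
    apply hinj
    rw [hδ₀, hψ, hδ₀, map_nsmul]
  -- kernel and cokernel of `ψbar`
  have hstK : ∀ g, ∀ x ∈ LinearMap.ker ψbar, σA g x ∈ LinearMap.ker ψbar := by
    intro g x hx
    rw [LinearMap.mem_ker] at hx ⊢
    rw [hψeq, hx, map_zero]
  have hstR : ∀ g, ∀ y ∈ LinearMap.range ψbar, σB g y ∈ LinearMap.range ψbar := by
    rintro g _ ⟨x, rfl⟩
    exact ⟨σA g x, hψeq g x⟩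
  obtain ⟨-, σC, -, hσC, -⟩ := exists_ses_of_stable σB (LinearMap.range ψbar) hstR
  have key := Φ.ev_ker_coker (σK := subRep σA (LinearMap.ker ψbar) hstK) (σX := σA) (σY := σB)
    (σC := σC) (LinearMap.ker ψbar).subtype ψbar (LinearMap.range ψbar).mkQ (fun g x => rfl) hψeq
    (fun g y => (hσC g y).symm) Subtype.val_injective
    (fun x => ⟨fun h => ⟨⟨x, h⟩, rfl⟩, fun ⟨y, hy⟩ => hy ▸ y.2⟩)
    (fun y => by
      rw [Submodule.mkQ_apply, Submodule.Quotient.mk_eq_zero]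
      rfl)
    (Submodule.mkQ_surjective _)
  -- both are `B / ψ A`
  have hmemK : ∀ b, clA (δ₀ b) ∈ LinearMap.ker ψbar := by
    intro b
    rw [LinearMap.mem_ker, hψbar, hδ₀]
    exact (hB.ker _).2 ⟨b, rfl⟩
  let f' : B →+ ↥(LinearMap.ker ψbar) := (clA.comp δ₀).codRestrict (LinearMap.ker ψbar) hmemK
  let f : B →+ (XB ⧸ LinearMap.range ψbar) :=
    (LinearMap.range ψbar).mkQ.toAddMonoidHom.comp clB
  have hkf : ∀ b, f b = 0 ↔ b ∈ ψ.range := by
    intro b
    show (LinearMap.range ψbar).mkQ (clB b) = 0 ↔ _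
    rw [Submodule.mkQ_apply, Submodule.Quotient.mk_eq_zero]
    constructor
    · rintro ⟨x, hx⟩
      obtain ⟨a, rfl⟩ := hA.surj x
      rw [hψbar, ← sub_eq_zero, ← map_sub] at hx
      obtain ⟨b', hb'⟩ := (hB.ker _).1 hx
      have h1 : b = ψ a - p • b' := by rw [← hb']; abel
      rw [h1]
      exact ψ.range.sub_mem ⟨a, rfl⟩ (hp b')
    · rintro ⟨a, rfl⟩
      exact ⟨clA a, hψbar a⟩
  have hkf' : ∀ b, f' b = 0 ↔ b ∈ ψ.range := by
    intro b
    have h0 : f' b = 0 ↔ clA (δ₀ b) = 0 :=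
      ⟨fun h => congrArg Subtype.val h, fun h => Subtype.ext h⟩
    rw [h0, hA.ker]
    constructor
    · rintro ⟨a, ha⟩
      have h1 : p • (b - ψ a) = 0 := by
        rw [smul_sub, ← hδ₀, ha, map_nsmul, sub_self]
      have h2 := ψ.range.add_mem (htor _ h1) ⟨a, rfl⟩
      rwa [sub_add_cancel] at h2
    · rintro ⟨a, rfl⟩
      refine ⟨a, hinj ?_⟩
      rw [hδ₀, map_nsmul]
  have hiso : IsoRep σC (subRep σA (LinearMap.ker ψbar) hstK) := by
    refine isoRep_of_surj (fun g b => τB g b) f f' ?_ ?_ ?_ ?_ (fun b => (hkf b).trans (hkf' b).symm)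
    · intro g b
      show (LinearMap.range ψbar).mkQ (clB (τB g b)) = σC g ((LinearMap.range ψbar).mkQ (clB b))
      rw [hσC, hB.equiv]
    · intro g b
      apply Subtype.ext
      show clA (δ₀ (τB g b)) = σA g (clA (δ₀ b))
      rw [hδτ, hA.equiv]
    · intro y
      obtain ⟨y, rfl⟩ := Submodule.mkQ_surjective _ y
      obtain ⟨b, rfl⟩ := hB.surj y
      exact ⟨b, rfl⟩
    · rintro ⟨x, hx⟩
      obtain ⟨a, rfl⟩ := hA.surj x
      rw [LinearMap.mem_ker, hψbar] at hx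
      obtain ⟨b, hb⟩ := (hB.ker _).1 hx
      refine ⟨b, Subtype.ext ?_⟩
      show clA (δ₀ b) = clA a
      congr 1
      apply hinj
      rw [hδ₀, hb]
  have e3 := Φ.iso _ _ hiso
  have e3' : Φ.ev σC = Φ.ev (subRep σA (LinearMap.ker ψbar) hstK) := e3
  rw [e3'] at key
  exact add_right_cancel key

/-! ### EC-L2 -/

omit [Module.Finite (ZMod p) XA] [Module.Finite (ZMod p) XB] in
/-- the prime-to-`p` step -/
theorem isoRep_of_prime_to_p (hA : IsModP p τA σA clA) (hB : IsModP p τB σB clB) (ψ : A →+ B)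
    (hψ : ∀ g a, ψ (τA g a) = τB g (ψ a)) (hinj : Function.Injective ψ)
    (hfin : Finite (B ⧸ ψ.range)) (hsup : ∀ b : B, ∃ a b', b = ψ a + p • b') :
    IsoRep σA σB := by
  have hsurjp : Function.Surjective (fun x : B ⧸ ψ.range => p • x) := by
    intro x
    induction x using QuotientAddGroup.induction_on with
    | H b =>
      obtain ⟨a, b', rfl⟩ := hsup b
      refine ⟨(b' : B ⧸ ψ.range), ?_⟩
      show ((p • b' : B) : B ⧸ ψ.range) = ((ψ a + p • b' : B) : B ⧸ ψ.range)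
      rw [QuotientAddGroup.eq]
      refine ⟨a, ?_⟩
      abel
  have hinjp := Finite.injective_iff_surjective.2 hsurjp
  refine isoRep_of_surj (fun g a => τA g a) clA (clB.comp ψ) hA.equiv
    (fun g a => by rw [AddMonoidHom.comp_apply, AddMonoidHom.comp_apply, hψ, hB.equiv]) hA.surj ?_ ?_
  · intro y
    obtain ⟨b, rfl⟩ := hB.surj y
    obtain ⟨a, b', rfl⟩ := hsup b
    refine ⟨a, ?_⟩
    rw [AddMonoidHom.comp_apply, map_add, (hB.ker (p • b')).2 ⟨b', rfl⟩, add_zero]
  · intro a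
    rw [AddMonoidHom.comp_apply, hA.ker, hB.ker]
    constructor
    · rintro ⟨a', rfl⟩
      exact ⟨ψ a', map_nsmul ψ p a'⟩
    · rintro ⟨b, hb⟩
      have h1 : (b : B ⧸ ψ.range) = 0 := by
        apply hinjp
        show ((p • b : B) : B ⧸ ψ.range) = p • (0 : B ⧸ ψ.range)
        rw [smul_zero, QuotientAddGroup.eq_zero_iff, ← hb]
        exact ⟨a, rfl⟩
      obtain ⟨a', rfl⟩ := (QuotientAddGroup.eq_zero_iff _).1 h1
      refine ⟨a', hinj ?_⟩
      rw [hb, map_nsmul]

/-! ### EC-L3 -/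

/-- `C = ψ A + p B` -/
def latC (p : ℕ) {A B : Type} [AddCommGroup A] [AddCommGroup B] (ψ : A →+ B) : Submodule ℤ B where
  carrier := {b | ∃ a b', b = ψ a + p • b'}
  add_mem' := by
    rintro _ _ ⟨a, b, rfl⟩ ⟨a', b', rfl⟩
    exact ⟨a + a', b + b', by rw [map_add, smul_add]; abel⟩
  zero_mem' := ⟨0, 0, by simp⟩
  smul_mem' := by
    rintro c _ ⟨a, b, rfl⟩
    exact ⟨c • a, c • b, by rw [map_zsmul, smul_add, smul_comm]⟩

theorem AddFun.lattice_aux {p : ℕ} [Fact p.Prime] {G : Type} [Group G] (Φ : AddFun (ZMod p) G)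
    (n : ℕ) : ∀ (A B XA XB : Type) [AddCommGroup A] [AddCommGroup B] [AddCommGroup XA]
    [Module (ZMod p) XA] [AddCommGroup XB] [Module (ZMod p) XB] [Module.Finite (ZMod p) XA]
    [Module.Finite (ZMod p) XB] (τA : Representation ℤ G A) (τB : Representation ℤ G B)
    (σA : Representation (ZMod p) G XA) (σB : Representation (ZMod p) G XB) (clA : A →+ XA)
    (clB : B →+ XB), IsModP p τA σA clA → IsModP p τB σB clB → ∀ ψ : A →+ B,
    (∀ g a, ψ (τA g a) = τB g (ψ a)) → Function.Injective ψ → Finite (B ⧸ ψ.range) →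
    (∀ b : B, p • b = 0 → b ∈ ψ.range) → Nat.card (B ⧸ ψ.range) = n → Φ.ev σA = Φ.ev σB := by
  induction n using Nat.strong_induction_on with
  | _ n ih =>
    intro A B XA XB _ _ _ _ _ _ _ _ τA τB σA σB clA clB hA hB ψ hψ hinj hfin htor hn
    by_cases hC : ∀ b : B, ∃ a b', b = ψ a + p • b'
    · exact Φ.iso _ _ (isoRep_of_prime_to_p hA hB ψ hψ hinj hfin hC)
    push Not at hC
    obtain ⟨b₀, hb₀⟩ := hC
    have hstC : ∀ g, ∀ b ∈ latC p ψ, τB g b ∈ latC p ψ := by
      rintro g _ ⟨a, b, rfl⟩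
      exact ⟨τA g a, τB g b, by rw [map_add, hψ, map_nsmul]⟩
    obtain ⟨XC, _, _, σC, clC, hCm⟩ := exists_modP (p := p) (subRep τB (latC p ψ) hstC)
    have hψC : ∀ a, ψ a ∈ latC p ψ := fun a => ⟨a, 0, by simp⟩
    have hpC : ∀ b : B, p • b ∈ latC p ψ := fun b => ⟨0, b, by simp⟩
    -- `XC` is finite
    have hfinA : Finite XA := Module.finite_of_finite (ZMod p)
    have hfinB : Finite XB := Module.finite_of_finite (ZMod p)
    have hfinC : Finite XC := by
      let F : XA × XB → XC := fun x =>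
        clC ⟨ψ (Function.surjInv hA.surj x.1) + p • Function.surjInv hB.surj x.2, _, _, rfl⟩
      refine Finite.of_surjective F fun z => ?_
      obtain ⟨⟨_, a, b, rfl⟩, rfl⟩ := hCm.surj z
      refine ⟨(clA a, clB b), ?_⟩
      obtain ⟨a', ha'⟩ := (hA.ker (Function.surjInv hA.surj (clA a) - a)).1 (by
        rw [map_sub, Function.surjInv_eq hA.surj, sub_self])
      obtain ⟨b', hb'⟩ := (hB.ker (Function.surjInv hB.surj (clB b) - b)).1 (by
        rw [map_sub, Function.surjInv_eq hB.surj, sub_self])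
      rw [← sub_eq_zero, ← map_sub, hCm.ker]
      refine ⟨⟨ψ a' + p • b', _, _, rfl⟩, Subtype.ext ?_⟩
      show ψ (Function.surjInv hA.surj (clA a)) + p • Function.surjInv hB.surj (clB b) -
        (ψ a + p • b) = p • (ψ a' + p • b')
      rw [smul_add, ← map_nsmul, ← ha', ← hb', map_sub, smul_sub]
      abel
    have : Module.Finite (ZMod p) XC := Module.Finite.of_finite
    -- `A → C`
    let ψ' : A →+ ↥(latC p ψ) := ψ.codRestrict (latC p ψ) hψC
    have hmap : ψ'.range ≤ ψ.range.comap (latC p ψ).subtype.toAddMonoidHom := by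
      rintro _ ⟨a, rfl⟩
      exact ⟨a, rfl⟩
    let Θ : (↥(latC p ψ) ⧸ ψ'.range) →+ (B ⧸ ψ.range) :=
      QuotientAddGroup.map ψ'.range ψ.range (latC p ψ).subtype.toAddMonoidHom hmap
    have hΘinj : Function.Injective Θ := by
      rw [injective_iff_map_eq_zero]
      intro x hx
      induction x using QuotientAddGroup.induction_on with
      | H c =>
        have h1 : ((c : B) : B ⧸ ψ.range) = 0 := hx
        obtain ⟨a, ha⟩ := (QuotientAddGroup.eq_zero_iff _).1 h1
        exact (QuotientAddGroup.eq_zero_iff _).2 ⟨a, Subtype.ext ha⟩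
    have hΘns : ¬ Function.Surjective Θ := by
      intro hs
      obtain ⟨x, hx⟩ := hs (b₀ : B ⧸ ψ.range)
      induction x using QuotientAddGroup.induction_on with
      | H c =>
        have h1 : ((c : B) : B ⧸ ψ.range) = (b₀ : B ⧸ ψ.range) := hx
        obtain ⟨a, ha⟩ := QuotientAddGroup.eq.1 h1
        obtain ⟨a', b', hc⟩ := c.2
        refine hb₀ (a + a') b' ?_
        have h2 : b₀ = (c : B) + ψ a := by rw [ha]; abel
        rw [h2, hc, map_add]
        abel
    have hfin' : Finite (↥(latC p ψ) ⧸ ψ'.range) := Finite.of_injective Θ hΘinj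
    have hlt : Nat.card (↥(latC p ψ) ⧸ ψ'.range) < n := by
      have := Fintype.ofFinite (↥(latC p ψ) ⧸ ψ'.range)
      have := Fintype.ofFinite (B ⧸ ψ.range)
      rw [← hn, Nat.card_eq_fintype_card, Nat.card_eq_fintype_card]
      exact Fintype.card_lt_of_injective_not_surjective Θ hΘinj hΘns
    have e1 : Φ.ev σA = Φ.ev σC := by
      refine ih _ hlt A ↥(latC p ψ) XA XC τA (subRep τB (latC p ψ) hstC) σA σC clA clC hA hCm ψ'
        (fun g a => Subtype.ext (hψ g a)) (fun a a' h => hinj (congrArg Subtype.val h)) hfin' ?_ rfl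
      intro c hc
      obtain ⟨a, ha⟩ := htor (c : B) (congrArg Subtype.val hc)
      exact ⟨a, Subtype.ext ha⟩
    have e2 : Φ.ev σC = Φ.ev σB := by
      refine Φ.lattice_step hCm hB (latC p ψ).subtype.toAddMonoidHom (fun g a => rfl)
        Subtype.val_injective (fun b => ⟨⟨p • b, hpC b⟩, rfl⟩) ?_
      intro b hb
      obtain ⟨a, ha⟩ := htor b hb
      exact ⟨⟨b, ha ▸ hψC a⟩, rfl⟩
    exact e1.trans e2

/-- **The lattice lemma.** -/
theorem AddFun.lattice (Φ : AddFun (ZMod p) G) (hA : IsModP p τA σA clA)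
    (hB : IsModP p τB σB clB) (ψ : A →+ B) (hψ : ∀ g a, ψ (τA g a) = τB g (ψ a))
    (hinj : Function.Injective ψ) (hfin : Finite (B ⧸ ψ.range))
    (htor : ∀ b : B, p • b = 0 → b ∈ ψ.range) : Φ.ev σA = Φ.ev σB :=
  Φ.lattice_aux _ A B XA XB τA τB σA σB clA clB hA hB ψ hψ hinj hfin htor rfl

end Fermat.Agent.S56.EC
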